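import Fermat.Agent.S59.H116.LoSqEasyAux
import Fermat.Agent.S36.H683.Top
import Fermat.Agent.S36.Eng.Two
import Fermat.Agent.S36.Alg3.Final
import Fermat.Agent.S36.Mod3.Top
import Fermat.Agent.S58.H94.EigChar
import Fermat.Agent.S59.H401.DictPoint
import Fermat.Agent.S31.H262.Points
import Fermat.Agent.S37.H99.FrobAt
import Fermat.Agent.Lib.Newform.Main
import Fermat.Prelude.Def_FLTPrelim_ModularRep

/-!
# Row S59, cell (C) LO-SQ — the EASY half `p ∤ q² - 1`, characteristic-zero glue (helper116)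

`loSqEasy116` : the statement `H934.LoSqStatement` with the extra hypothesis `¬ p ∣ q ^ 2 - 1`
(= `H826.LoSqEasy826Statement`, VERBATIM), at EVERY level: no neat level, no engine.

Proof.  Let `f` be the eigenform of level `M` congruent to `W` modulo `𝔪`, and `g` the newform of
level `M₀ ∣ M` with the same eigenvalues away from `M` (`Lib.Newform.descent`).
If `q² ∤ M₀` then `M₀ ∣ M / q` and `Lib.Newform.stab` gives the eigenform of level `M / q`.
If `q² ∣ M₀`: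
* the coefficient ring `chig.range` of `g` has a `p`-adic point `ι : chig.range → 𝒪'` centred at
  `𝔪` (`S31.H262.pts_of_reduced`, `S59.H401.dict_exists_point_of_pts`);
* the PLAIN top of S36 (`S36.H683.result_of_newPart`) gives `ρ` over `𝒪'' ⊇ 𝒪'`, attached to
  `(g, ι)`, which is NOT unipotent on inertia at `q`;
* the reduction of `ρ` has the characteristic polynomials of `W[p]` (residual Chebotarev
  `S58.H273.charpoly_residual_eq_of_frob`), and inertia at `q` is unipotent on `W[p]`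
  (`wRes_charpoly_inertia116`, semistability);
* hence `ρ` is unipotent on inertia at `q` (helper207's `isUnipotentOnInertiaAt_of_residual`,
  this is where `p ∤ q² - 1` enters): contradiction.
-/

set_option autoImplicit false
set_option linter.unusedSectionVars false
set_option linter.unusedVariables false
set_option linter.style.haveILetI false
set_option maxHeartbeats 1000000
set_option synthInstance.maxHeartbeats 400000

open Polynomial IsLocalRing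

namespace Fermat.Agent.S59.H116

open CuspForm CongruenceSubgroup ModularFormClass

/-- If `M₀ ∣ M`, `q² ∣ M` and `q² ∤ M₀` then `M₀ ∣ M / q`. -/
theorem dvd_div_of_not_sq_dvd116 {M M₀ q : ℕ} (hq : q.Prime) (hM₀ : M₀ ∣ M) (hq2 : q ^ 2 ∣ M)
    (hn : ¬ q ^ 2 ∣ M₀) : M₀ ∣ M / q := by
  have hqM : q ∣ M := dvd_trans (dvd_pow_self q two_ne_zero) hq2
  obtain ⟨K, rfl⟩ := hqM
  rw [Nat.mul_div_cancel_left K hq.pos]
  have hqK : q ∣ K := by
    rw [pow_two] at hq2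
    exact (Nat.mul_dvd_mul_iff_left hq.pos).mp hq2
  by_cases h : q ∣ M₀
  · obtain ⟨M₁, rfl⟩ := h
    have hM₁K : M₁ ∣ K := (Nat.mul_dvd_mul_iff_left hq.pos).mp hM₀
    have hcop : Nat.Coprime q M₁ := by
      rw [Nat.Prime.coprime_iff_not_dvd hq]
      intro h1
      apply hn
      rw [pow_two]
      exact Nat.mul_dvd_mul_left q h1
    exact Nat.Coprime.mul_dvd_of_dvd_of_dvd hcop hqK hM₁K
  · have hcop : Nat.Coprime M₀ q := ((Nat.Prime.coprime_iff_not_dvd hq).mpr h).symm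
    exact hcop.dvd_of_dvd_mul_left hM₀

/-- `q ∣ M / q` if `q² ∣ M`. -/
theorem dvd_div_of_sq_dvd116 {M q : ℕ} (hq : q.Prime) (hq2 : q ^ 2 ∣ M) : q ∣ M / q := by
  obtain ⟨K, rfl⟩ := hq2
  rw [pow_two, mul_assoc, Nat.mul_div_cancel_left _ hq.pos]
  exact Dvd.intro _ rfl

/-- **No `q²`-newform is congruent to a curve which is semistable at `q`, if `p ∤ q² - 1`.** -/
theorem not_sq_dvd_level116 (p : ℕ) [Fact p.Prime] (hp2 : p ≠ 2)
    (W : WeierstrassCurve ℤ) (hΔ : W.Δ ≠ 0) (hW : W.IsSemistableModel)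
    (hirr : W.ModRepIsIrreducible p)
    (M q : ℕ) (hM : M ≠ 0)
    (hq : q.Prime) (hqp : q ≠ p) (hq3 : ¬ q ^ 3 ∣ M) (hpq : ¬ p ∣ q ^ 2 - 1)
    (𝔪 : Ideal (integralClosure ℤ ℂ)) (hmax : 𝔪.IsMaximal)
    (hp𝔪 : (p : integralClosure ℤ ℂ) ∈ 𝔪)
    (M₀ : ℕ) [NeZero M₀] (hM₀M : M₀ ∣ M) (g : CuspForm (Gamma0 M₀) 2) (hg : g.IsNewform)
    (hcong : ∀ ℓ : ℕ, ℓ.Prime → W.IsGoodPrimeFor ℓ → ¬ ℓ ∣ M → ℓ ≠ p →
      ∃ a : integralClosure ℤ ℂ, (a : ℂ) = ModularFormClass.qCoeff g ℓ ∧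
        a - ((W.apOfModel ℓ : ℤ) : integralClosure ℤ ℂ) ∈ 𝔪) :
    ¬ q ^ 2 ∣ M₀ := by
  classical
  intro hq2M₀
  have hpp : p.Prime := Fact.out
  have hM₀0 : M₀ ≠ 0 := NeZero.ne M₀
  have hfact : M₀.factorization q = 2 := by
    have h2' := (hq.pow_dvd_iff_le_factorization hM₀0).1 hq2M₀
    have h3' : ¬ 3 ≤ M₀.factorization q := fun h =>
      hq3 (dvd_trans ((hq.pow_dvd_iff_le_factorization hM₀0).2 h) hM₀M)
    omega
  set S' : Finset ℕ := insert p M.primeFactors with hS'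
  have hpS' : p ∈ S' := Finset.mem_insert_self _ _
  have hMS' : ∀ r : ℕ, r.Prime → r ∣ M₀ → r ∈ S' := fun r hr hrM =>
    Finset.mem_insert_of_mem (Nat.mem_primeFactors.mpr ⟨hr, dvd_trans hrM hM₀M, hM⟩)
  set chig : heckeAlgebra M₀ 2 (↑S' : Set ℕ) →+* ℂ :=
    Fermat.Agent.S58.H94.chigOf hg.1 (↑S' : Set ℕ) with hchigdef
  have hchig : ∀ (ℓ : ℕ) (hℓ : ℓ.Prime) (hℓM : ¬ ℓ ∣ M₀) (hℓS : ℓ ∉ (↑S' : Set ℕ)),
      chig (heckeAlgebra.T hℓ hℓM hℓS) = qCoeff ⇑g ℓ :=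
    fun ℓ hℓ hℓM hℓS => Fermat.Agent.S58.H94.chigOf_T hg.1 _ hℓ hℓM hℓS
  -- integrality of the coefficient ring
  have hfin : Module.Finite ℤ (heckeAlgebra M₀ 2 (↑S' : Set ℕ)) := Fermat.Agent.S22.result M₀ 2 _
  have hint : ∀ x : chig.range, (x : ℂ) ∈ integralClosure ℤ ℂ := by
    rintro ⟨x, t, rfl⟩
    have ht : IsIntegral ℤ t := Algebra.IsIntegral.isIntegral t
    exact ht.map chig.toIntAlgHom
  haveI : Module.Finite ℤ chig.range :=
    Module.Finite.of_surjective (chig.rangeRestrict.toIntAlgHom.toLinearMap)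
      chig.rangeRestrict_surjective
  -- the reduction map of the coefficient ring
  let incl : chig.range →+* integralClosure ℤ ℂ :=
    { toFun := fun x => ⟨x.1, hint x⟩
      map_one' := rfl
      map_mul' := fun _ _ => rfl
      map_zero' := rfl
      map_add' := fun _ _ => rfl }
  haveI := hmax.isPrime
  let θ : chig.range →+* (integralClosure ℤ ℂ ⧸ 𝔪) := (Ideal.Quotient.mk 𝔪).comp incl
  have hθprime : (RingHom.ker θ).IsPrime := RingHom.ker_isPrime θ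
  have hpθ : ((p : ℕ) : chig.range) ∈ RingHom.ker θ := by
    rw [RingHom.mem_ker, map_natCast]
    have := Ideal.Quotient.eq_zero_iff_mem.mpr hp𝔪
    rwa [map_natCast] at this
  have hPTS := Fermat.Agent.S31.H262.pts_of_reduced p hpp chig.range
  obtain ⟨P, hP⟩ := Fermat.Agent.S59.H401.dict_exists_point_of_pts hPTS (RingHom.ker θ) hpθ
  -- the plain top of S36
  obtain ⟨O'', j1, j2, j3, j4, j5, j6, j7, j8, j9, hinj, ρ, hρ, hρnu⟩ :=
    Fermat.Agent.S36.H683.result_of_newPart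
      (Fermat.Agent.S36.Eng.newPartInertia_of_alg3_model3 Fermat.Agent.S36.Alg3.alg3
        Fermat.Agent.S36.Mod3.model3)
      hg p S' P.O P.hp chig hchig P.χ hpS' hMS'
  have hpO'' : (p : O'') ∈ maximalIdeal O'' :=
    Fermat.Agent.S58.H273.natCast_mem_maximalIdeal_of_isLocalHom p P.hp
  apply hρnu q hq hqp hfact
  refine Fermat.Agent.S59.H207.isUnipotentOnInertiaAt_of_residual ρ hpp hq (Ne.symm hqp) hpq hpO''
    (fun A hA => Fermat.Agent.S37.H99.exists_isFrobeniusAt q hq A hA) ?_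
  intro A hA τ hτ
  haveI : CharP (ResidueField O'') p := Fermat.Agent.S58.H273.charP_residueField p hpO''
  let ι : ZMod p →+* ResidueField O'' := ZMod.castHom (dvd_refl p) (ResidueField O'')
  have hcp := Fermat.Agent.S58.H273.charpoly_residual_eq_of_frob
    (Fermat.Agent.S58.H273.wRes W hΔ p) ι ρ (S' ∪ W.Δ.natAbs.primeFactors) ?_ τ
  · have hres : LinearMap.charpoly (ρ.residual.ρ τ)
        = (LinearMap.charpoly (ρ.ρ τ)).map (residue O'') := by
      have h1 : LinearMap.charpoly (ρ.residual.ρ τ)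
          = LinearMap.charpoly ((ρ.ρ τ).baseChange (ResidueField O'')) := rfl
      rw [h1, LinearMap.charpoly_baseChange, IsLocalRing.ResidueField.algebraMap_eq]
    rw [← hres, hcp, wRes_charpoly_inertia116 W hΔ hW p hq hqp A hA τ hτ]
    simp
  · intro ℓ hℓ hℓT B hB σ hσ
    have hℓS' : ℓ ∉ S' := fun h => hℓT (Finset.mem_union_left _ h)
    have hℓp : ℓ ≠ p := fun h => hℓS' (h ▸ hpS')
    have hℓM : ¬ ℓ ∣ M := fun h =>
      hℓS' (Finset.mem_insert_of_mem (Nat.mem_primeFactors.mpr ⟨hℓ, h, hM⟩))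
    have hℓM₀ : ¬ ℓ ∣ M₀ := fun h => hℓM (dvd_trans h hM₀M)
    have hℓSc : ℓ ∉ (↑S' : Set ℕ) := fun h => hℓS' (Finset.mem_coe.mp h)
    have hgood : W.IsGoodPrimeFor ℓ := by
      intro hdvd
      apply hℓT
      refine Finset.mem_union_right _ ?_
      rw [Nat.mem_primeFactors]
      exact ⟨hℓ, Int.natCast_dvd.mp hdvd, by simpa using hΔ⟩
    rw [hρ ℓ hℓ hℓM₀ hℓSc B hB σ hσ,
      Fermat.Agent.S58.H273.wRes_charpoly_frob W hΔ p hp2 hirr ℓ hℓ hℓp hgood B hB σ hσ]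
    -- the congruence
    obtain ⟨a, ha, hmem⟩ := hcong ℓ hℓ hgood hℓM hℓp
    set x : chig.range := chig.rangeRestrict (heckeAlgebra.T hℓ hℓM₀ hℓSc) with hx
    have hxa : incl x = a := by
      apply Subtype.ext
      show (x : ℂ) = (a : ℂ)
      rw [ha, ← hchig ℓ hℓ hℓM₀ hℓSc]
      rfl
    have hker : x - ((W.apOfModel ℓ : ℤ) : chig.range) ∈ RingHom.ker θ := by
      rw [RingHom.mem_ker, map_sub, map_intCast]
      show Ideal.Quotient.mk 𝔪 (incl x) - _ = 0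
      rw [hxa, ← map_intCast (Ideal.Quotient.mk 𝔪), ← map_sub]
      exact Ideal.Quotient.eq_zero_iff_mem.mpr hmem
    have h1 := hP _ hker
    rw [map_sub, map_intCast] at h1
    have h2 : residue O'' (algebraMap P.O O'' (P.χ x))
        = ((W.apOfModel ℓ : ℤ) : ResidueField O'') := by
      have h3 : algebraMap P.O O'' (P.χ x - ((W.apOfModel ℓ : ℤ) : P.O)) ∈ maximalIdeal O'' := by
        rw [mem_maximalIdeal, mem_nonunits_iff]
        intro hu
        exact (mem_nonunits_iff.mp ((mem_maximalIdeal _).mp h1))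
          (isUnit_of_map_unit (algebraMap P.O O'') _ hu)
      rw [map_sub, map_intCast] at h3
      have h4 := (residue_eq_zero_iff _).mpr h3
      rw [map_sub, map_intCast] at h4
      exact sub_eq_zero.mp h4
    simp only [Polynomial.map_add, Polynomial.map_sub, Polynomial.map_mul, Polynomial.map_pow,
      Polynomial.map_X, Polynomial.map_C, map_natCast, map_intCast, Polynomial.map_intCast,
      Polynomial.map_natCast, RingHom.comp_apply]
    rw [← hx, h2]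
    simp only [map_intCast]

/-- **LO-SQ, the easy half, general form**: any odd prime `p`, any level `M ≠ 0` with `q² ∣ M`,
`q³ ∤ M`, `p ∤ q² - 1`. -/
theorem loSqEasy_gen116 (p : ℕ) [Fact p.Prime] (hp2 : p ≠ 2)
    (W : WeierstrassCurve ℤ) (hΔ : W.Δ ≠ 0) (hW : W.IsSemistableModel)
    (hirr : W.ModRepIsIrreducible p)
    (M q : ℕ) (hM : M ≠ 0) (hq : q.Prime) (hqp : q ≠ p) (hq2 : q ^ 2 ∣ M) (hq3 : ¬ q ^ 3 ∣ M)
    (hpq : ¬ p ∣ q ^ 2 - 1) (hres : W.IsResiduallyModularOfLevel p M) :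
    W.IsResiduallyModularOfLevel p (M / q) := by
  classical
  haveI : NeZero M := ⟨hM⟩
  obtain ⟨f, 𝔪, hf, hmax, hp𝔪, hcong⟩ := hres
  obtain ⟨M₀, hM₀M, g, hg, hga⟩ := Fermat.Agent.Lib.Newform.descent M f hf
  have hM₀0 : M₀ ≠ 0 := fun h => hM (by rw [h] at hM₀M; exact zero_dvd_iff.mp hM₀M)
  haveI : NeZero M₀ := ⟨hM₀0⟩
  have hqM : q ∣ M := dvd_trans (dvd_pow_self q two_ne_zero) hq2
  have hMq0 : M / q ≠ 0 := by
    obtain ⟨c, rfl⟩ := hqM
    rw [Nat.mul_div_cancel_left c hq.pos]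
    exact fun h => hM (by rw [h, mul_zero])
  haveI : NeZero (M / q) := ⟨hMq0⟩
  have hkey : ¬ q ^ 2 ∣ M₀ :=
    not_sq_dvd_level116 p hp2 W hΔ hW hirr M q hM hq hqp hq3 hpq 𝔪 hmax hp𝔪
      M₀ hM₀M g hg (fun ℓ hℓ hgood hℓM hℓp => by
        obtain ⟨a, ha, hmem⟩ := hcong ℓ hℓ hgood hℓM hℓp
        exact ⟨a, by rw [ha, hga ℓ hℓ hℓM], hmem⟩)
  have hdvd : M₀ ∣ M / q := dvd_div_of_not_sq_dvd116 hq hM₀M hq2 hkey
  obtain ⟨g', hg', hg'a⟩ := Fermat.Agent.Lib.Newform.stab M₀ (M / q) hdvd g hg.1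
  refine ⟨g', 𝔪, hg', hmax, hp𝔪, fun ℓ hℓ hgood hℓMq hℓp => ?_⟩
  have hℓM : ¬ ℓ ∣ M := by
    intro h
    rw [← Nat.mul_div_cancel' hqM] at h
    rcases (Nat.Prime.dvd_mul hℓ).mp h with h1 | h1
    · have : ℓ = q := (Nat.prime_dvd_prime_iff_eq hℓ hq).mp h1
      subst this
      exact hℓMq (dvd_div_of_sq_dvd116 hq hq2)
    · exact hℓMq h1
  obtain ⟨a, ha, hmem⟩ := hcong ℓ hℓ hgood hℓM hℓp
  exact ⟨a, by rw [ha, hg'a ℓ hℓ hℓMq, hga ℓ hℓ hℓM], hmem⟩

/-- **LO-SQ, the easy half** (`p ∤ q² - 1`), at every level: `H934.LoSqStatement` with the extra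
hypothesis `¬ p ∣ q ^ 2 - 1` (VERBATIM the Prop `H826.LoSqEasy826Statement`). -/
theorem loSqEasy116 :
    ∀ (p : ℕ) [Fact p.Prime] (_hp : p = 3 ∨ p = 5)
      (W : WeierstrassCurve ℤ) (_hΔ : W.Δ ≠ 0) (_hW : W.IsSemistableModel)
      (_hirr : W.ModRepIsIrreducible p)
      (M q : ℕ) (_hM : M ≠ 0) (_hpM : ¬ p ^ 2 ∣ M)
      (_hM3 : ∀ r : ℕ, r.Prime → r ≠ p → ¬ r ^ 3 ∣ M)
      (_hq : q.Prime) (_hqp : q ≠ p) (_hq2 : q ^ 2 ∣ M) (_hpq : ¬ p ∣ q ^ 2 - 1)
      (_hres : W.IsResiduallyModularOfLevel p M),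
      W.IsResiduallyModularOfLevel p (M / q) := by
  intro p _ hp W hΔ hW hirr M q hM hpM hM3 hq hqp hq2 hpq hres
  have hp2 : p ≠ 2 := by
    rcases hp with rfl | rfl <;> decide
  exact loSqEasy_gen116 p hp2 W hΔ hW hirr M q hM hq hqp hq2 (hM3 q hq hqp) hpq hres

/-- **LO-SQ at `(p, q) = (5, 2)`** (VERBATIM the Prop `H826.LoSq52Statement`). -/
theorem loSq52_116 :
    ∀ (W : WeierstrassCurve ℤ) (_hΔ : W.Δ ≠ 0) (_hW : W.IsSemistableModel)
      (_hirr : W.ModRepIsIrreducible 5)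
      (M : ℕ) (_hM : M ≠ 0) (_hpM : ¬ 5 ^ 2 ∣ M)
      (_hM3 : ∀ r : ℕ, r.Prime → r ≠ 5 → ¬ r ^ 3 ∣ M) (_h4 : 2 ^ 2 ∣ M)
      (_hres : W.IsResiduallyModularOfLevel 5 M),
      W.IsResiduallyModularOfLevel 5 (M / 2) := by
  intro W hΔ hW hirr M hM hpM hM3 h4 hres
  haveI : Fact (Nat.Prime 5) := ⟨by norm_num⟩
  exact loSqEasy_gen116 5 (by norm_num) W hΔ hW hirr M 2 hM Nat.prime_two (by norm_num) h4
    (hM3 2 Nat.prime_two (by norm_num)) (by norm_num) hres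

/-- **LO-SQ at `(p, q) = (5, 3)`**. -/
theorem loSq53_116 :
    ∀ (W : WeierstrassCurve ℤ) (_hΔ : W.Δ ≠ 0) (_hW : W.IsSemistableModel)
      (_hirr : W.ModRepIsIrreducible 5)
      (M : ℕ) (_hM : M ≠ 0) (_hpM : ¬ 5 ^ 2 ∣ M)
      (_hM3 : ∀ r : ℕ, r.Prime → r ≠ 5 → ¬ r ^ 3 ∣ M) (_h9 : 3 ^ 2 ∣ M)
      (_hres : W.IsResiduallyModularOfLevel 5 M),
      W.IsResiduallyModularOfLevel 5 (M / 3) := by
  intro W hΔ hW hirr M hM hpM hM3 h9 hres
  haveI : Fact (Nat.Prime 5) := ⟨by norm_num⟩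
  exact loSqEasy_gen116 5 (by norm_num) W hΔ hW hirr M 3 hM Nat.prime_three (by norm_num) h9
    (hM3 3 Nat.prime_three (by norm_num)) (by norm_num) hres

end Fermat.Agent.S59.H116
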