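import Fermat.Agent.S59.H207.UnipLift
import Fermat.Agent.S58.H273.Hres
import Fermat.Agent.S59.H577.GTWCurve

/-!
# Row S59, cell (C) LO-SQ — EASY half, characteristic-zero glue, auxiliary lemmas (helper116)

* `charpoly_eq_of_sub_one_sq116` : over a field, an endomorphism `T` of a plane with
  `(T - 1)² = 0` has characteristic polynomial `(X - 1)²`.
* `wRes_charpoly_inertia116` : for a semistable integral model `W` (`Δ ≠ 0`) and primes `q ≠ p`,
  every element of an inertia group at `q` has characteristic polynomial `(X - 1)²` on `W[p]`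
  (the Prelude's `residualGaloisRepOf`, in the form `S58.H273.wRes`).
-/

set_option autoImplicit false
set_option linter.unusedSectionVars false
set_option linter.style.haveILetI false

open Polynomial IsLocalRing

namespace Fermat.Agent.S59.H116

/-- Over a field, an endomorphism `T` of a plane with `(T - 1)² = 0` has characteristic
polynomial `(X - 1)²`. -/
theorem charpoly_eq_of_sub_one_sq116 {k : Type*} [Field k] {V : Type*} [AddCommGroup V]
    [Module k V] [Module.Finite k V] (hV : Module.finrank k V = 2) (T : Module.End k V)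
    (h : (T - 1) * (T - 1) = 0) : LinearMap.charpoly T = (X - 1) ^ 2 := by
  classical
  have hch := Fermat.Agent.S58.H273.charpoly_eq_of_finrank_two hV T
  -- Cayley–Hamilton
  have hCH : T * T - (LinearMap.trace k V T) • T + (LinearMap.det T) • (1 : Module.End k V) = 0 := by
    have := LinearMap.aeval_self_charpoly T
    rw [hch] at this
    simp only [map_add, map_sub, map_mul, aeval_X, aeval_C, Algebra.algebraMap_eq_smul_one,
      smul_mul_assoc, one_mul, pow_two] at this
    exact this
  -- the relation `T² = 2 T - 1`
  have hsq : T * T = (2 : k) • T - 1 := by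
    have h1 : (T - 1) * (T - 1) = T * T - (2 : k) • T + 1 := by
      rw [two_smul]
      noncomm_ring
    rw [h1] at h
    have h2 : T * T = (2 : k) • T - 1 + (T * T - (2 : k) • T + 1) := by abel
    rw [h2, h, add_zero]
  -- `(tr - 2) T = (det - 1) 1`
  have hrel : (LinearMap.trace k V T - 2) • T = (LinearMap.det T - 1) • (1 : Module.End k V) := by
    have h3 : (LinearMap.trace k V T - 2) • T - (LinearMap.det T - 1) • (1 : Module.End k V)
        = -(T * T - (LinearMap.trace k V T) • T + (LinearMap.det T) • (1 : Module.End k V))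
          + (T * T - ((2 : k) • T - 1)) := by
      rw [sub_smul, sub_smul, one_smul]
      abel
    rw [hCH, hsq, sub_self, neg_zero, add_zero] at h3
    exact sub_eq_zero.mp h3
  -- a nonzero vector
  let b : Module.Basis (Fin 2) k V := Module.finBasisOfFinrankEq k V hV
  have hb0 : b 0 ≠ 0 := b.ne_zero 0
  have hone : ∀ a : k, a • (1 : Module.End k V) = 0 → a = 0 := by
    intro a ha
    have := congrArg (fun f : Module.End k V => f (b 0)) ha
    simp only [LinearMap.smul_apply, Module.End.one_apply, LinearMap.zero_apply] at this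
    exact (smul_eq_zero.mp this).resolve_right hb0
  have htr : LinearMap.trace k V T = 2 := by
    by_contra hne
    have hc : LinearMap.trace k V T - 2 ≠ 0 := sub_ne_zero.mpr hne
    -- `T` is a scalar
    have hT : T = ((LinearMap.trace k V T - 2)⁻¹ * (LinearMap.det T - 1)) • (1 : Module.End k V) := by
      rw [mul_smul, ← hrel, smul_smul, inv_mul_cancel₀ hc, one_smul]
    set e : k := (LinearMap.trace k V T - 2)⁻¹ * (LinearMap.det T - 1) with he
    have h4 : ((e - 1) * (e - 1)) • (1 : Module.End k V) = 0 := by
      have : (T - 1) * (T - 1) = ((e - 1) * (e - 1)) • (1 : Module.End k V) := by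
        rw [hT]
        have : e • (1 : Module.End k V) - 1 = (e - 1) • (1 : Module.End k V) := by
          rw [sub_smul, one_smul]
        rw [this, smul_mul_smul_comm, mul_one]
      rw [← this, h]
    have h5 : (e - 1) * (e - 1) = 0 := hone _ h4
    have h6 : e = 1 := by
      rcases mul_self_eq_zero.mp h5 with h7
      exact sub_eq_zero.mp h7
    apply hne
    rw [hT, h6, one_smul, LinearMap.trace_one, hV]
    norm_num
  have hdet : LinearMap.det T = 1 := by
    rw [htr, sub_self, zero_smul] at hrel
    exact sub_eq_zero.mp (hone _ hrel.symm)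
  rw [hch, htr, hdet]
  simp only [map_ofNat, map_one]
  ring

/-- **Inertia at `q ≠ p` is unipotent on `W[p]`** (`W` semistable), in characteristic-polynomial
form. -/
theorem wRes_charpoly_inertia116 (W : WeierstrassCurve ℤ) (hΔ : W.Δ ≠ 0)
    (hss : W.IsSemistableModel) (p : ℕ) [Fact p.Prime] {q : ℕ} (hq : q.Prime) (hqp : q ≠ p)
    (A : ValuationSubring (AlgebraicClosure ℚ)) (hA : A.LiesOverPrime q)
    (σ : AlgebraicClosure ℚ ≃ₐ[ℚ] AlgebraicClosure ℚ) (hσ : σ ∈ A.inertiaSubgroupIn ℚ) :
    LinearMap.charpoly ((Fermat.Agent.S58.H273.wRes W hΔ p).ρ σ) = (X - 1) ^ 2 := by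
  have h := Fermat.Agent.S59.H577.sub_one_sq_rho577 W p hΔ hss hq hqp A hA σ hσ
  exact charpoly_eq_of_sub_one_sq116 (Fermat.Agent.S58.H273.wRes W hΔ p).finrank_eq _ h

end Fermat.Agent.S59.H116
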